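/-
S25 package ATLAS/DIV, leaf LG -- sub-leaf LG1 (helper4190): the canonical section exists
globally as soon as it exists on all geometric fibres.

`exists_isCan_of_fibres` : `M` a rigid line bundle over `𝒞.chart R` such that every geometric
fibre `M'` has a section `s'` with `IsCan 𝒞 M' s'`  ⟹  `∃ s, IsCan 𝒞 M s`.

Route: `H¹(M) = 0` ((F) + base change of `H¹` + Nakayama by test functionals); `H⁰(M)` is
projective and commutes with base change ((CB1)); `ev_ε : H⁰(M) → R`, `t ↦ e t₁` (`e` the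
rigidification) is bijective because it is so on the fibres at all maximal ideals (Bass' lemma:
no finiteness of `H⁰` needed); `s := ev_ε⁻¹(1)`; `eps` from the universal property of `e`;
`away` from helper5390's `C2.of_fibres` (copied verbatim, namespace `LG.F5390`).
Also `exists_ne_zero_smul` (LG2): canonical sections correspond under base change to a field,
up to a nonzero scalar.
-/
import Fermat.Agent.S25.ATLAS.DIV.Defs
import Fermat.Agent.S25.ATLAS.DIV.LG.Tools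
import Fermat.Agent.S25.ATLAS.DIV.LG.F5390.C2
import Fermat.Agent.S25.Lib.Coh.Chart4030
import Fermat.Agent.S25.Lib.SemiBC.Coh9671
import Fermat.Agent.S25.Lib.Rigid.Basic48
import Fermat.Agent.S25.Lib.BaseChangeData

set_option autoImplicit false
set_option linter.style.haveILetI false
set_option linter.unusedSectionVars false

universe u

namespace Fermat.Agent.S25.ATLAS.DIV.LG

open scoped TensorProduct

open Fermat.Agent.S25 GluedModule Fermat.Agent.S25.Lib.SemiBC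

/-! ### An abstract local-to-global principle for linear forms on projective modules -/

section abstract

variable {R : Type u} [CommRing R]

/-- Let `u : P → R` be a linear form on a projective module.  Suppose that at every maximal ideal
`m` there are a field `κ`, `φ : R → κ` with kernel `m`, a base change `J : P → Q'` of `P` along
`φ` and an injective nonzero `κ`-linear form `E : Q' → κ` with `E ∘ J = φ ∘ u`.  Then `u` is
bijective. -/
theorem bijective_of_fibre_packages {P : Type u} [AddCommGroup P] [Module R P]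
    [Module.Projective R P] (u : P →ₗ[R] R)
    (h : ∀ (m : Ideal R) [m.IsMaximal], ∃ (κ : Type u) (_ : Field κ) (φ : R →+* κ) (Q' : Type u)
      (_ : AddCommGroup Q') (_ : Module κ Q') (J : P →+ Q') (E : Q' →ₗ[κ] κ),
      RingHom.ker φ = m ∧ IsSemiBC φ J ∧ (∀ t, E (J t) = φ (u t)) ∧ (∀ q, E q = 0 → q = 0) ∧
        ∃ q, E q ≠ 0) :
    Function.Bijective u := by
  have hsurj : Function.Surjective u := by
    rw [← LinearMap.range_eq_top]
    by_contra hne
    obtain ⟨m, hm, hle⟩ := Ideal.exists_le_maximal (LinearMap.range u) hne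
    obtain ⟨κ, _, φ, Q', _, _, J, E, hker, hS, hEJ, -, q, hq⟩ := h m
    have key : ∀ q : Q', E q = 0 := by
      intro q
      induction q using hS.induction_on with
      | zero => exact map_zero E
      | smul a t =>
        have h0 : φ (u t) = 0 := by
          have : u t ∈ RingHom.ker φ := by rw [hker]; exact hle ⟨t, rfl⟩
          exact this
        rw [map_smul, hEJ, h0, smul_zero]
      | add x y hx hy => rw [map_add, hx, hy, add_zero]
    exact hq (key q)
  obtain ⟨p₀, hp₀⟩ := hsurj 1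
  refine ⟨injective_of_forall_dual_mem_jacobson u p₀ hp₀ (fun x hx ψ => ?_), hsurj⟩
  refine Ideal.mem_sInf.2 (fun {m} hm => ?_)
  haveI : m.IsMaximal := hm.2
  obtain ⟨κ, _, φ, Q', _, _, J, E, hker, hS, hEJ, hEinj, -⟩ := h m
  obtain ⟨ψ', hψ', -⟩ := hS.univ κ ((φ : R →+ κ).comp ψ.toAddMonoidHom) (fun a t => by
    change φ (ψ (a • t)) = φ a • φ (ψ t)
    rw [map_smul, smul_eq_mul, map_mul, smul_eq_mul])
  have hJx : J x = 0 := hEinj _ (by rw [hEJ, hx, map_zero])
  have h1 : φ (ψ x) = 0 := by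
    have := hψ' x
    rw [hJx, map_zero] at this
    exact this.symm
  rw [← hker]
  exact h1

end abstract

variable {k : Type u} [Field k] (𝒞 : CurveData k)

/-! ### Rigidifications -/

section rig

variable {R : Type u} [CommRing R] [Algebra k R] {M : GluedModule (𝒞.chart R)}

/-- A rigidification is surjective. -/
theorem rig_surjective (e : M.N₁ →ₗ[R] R)
    (hu : ∀ (Q : Type u) [AddCommGroup Q] [Module R Q] (h : M.N₁ →ₗ[R] Q),
      (∀ (b : (𝒞.chart R).B₁) (n : M.N₁), h (b • n) = 𝒞.epsR R b • h n) →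
        ∃! h' : R →ₗ[R] Q, ∀ n, h' (e n) = h n) : Function.Surjective e := by
  obtain ⟨h', -, huniq⟩ := hu (R ⧸ LinearMap.range e) 0 (fun b n => by simp)
  have h1 : (LinearMap.range e).mkQ = h' := huniq _ (fun n => by
    rw [Submodule.mkQ_apply, LinearMap.zero_apply, Submodule.Quotient.mk_eq_zero]
    exact ⟨n, rfl⟩)
  have h2 : (0 : R →ₗ[R] R ⧸ LinearMap.range e) = h' := huniq _ (fun n => rfl)
  rw [← LinearMap.range_eq_top, ← Submodule.ker_mkQ (LinearMap.range e), h1, ← h2,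
    LinearMap.ker_zero]

/-- An `ε`-semilinear form kills `ker ε • M₁`. -/
theorem eval_eq_zero_of_mem_smul_top (e : M.N₁ →+ R)
    (he : ∀ (b : (𝒞.chart R).B₁) (n : M.N₁), e (b • n) = 𝒞.epsR R b * e n) {w : M.N₁}
    (hw : w ∈ (RingHom.ker (𝒞.epsR R : (𝒞.chart R).B₁ →+* R)) •
      (⊤ : Submodule (𝒞.chart R).B₁ M.N₁)) : e w = 0 := by
  refine Submodule.smul_induction_on hw (fun a ha n _ => ?_) (fun x y hx hy => ?_)
  · have ha' : 𝒞.epsR R a = 0 := ha
    rw [he, ha', zero_mul]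
  · rw [map_add, hx, hy, add_zero]

/-- If `s₁` generates the `ε`-fibre and an `ε`-semilinear form vanishes at `s₁`, it vanishes. -/
theorem eval_eq_zero_of_eps (e : M.N₁ →+ R)
    (he : ∀ (b : (𝒞.chart R).B₁) (n : M.N₁), e (b • n) = 𝒞.epsR R b * e n) (s₁ : M.N₁)
    (heps : Submodule.span (𝒞.chart R).B₁ {s₁} ⊔
      (RingHom.ker (𝒞.epsR R : (𝒞.chart R).B₁ →+* R)) •
        (⊤ : Submodule (𝒞.chart R).B₁ M.N₁) = ⊤) (h0 : e s₁ = 0) (n : M.N₁) : e n = 0 := by
  have hn : n ∈ Submodule.span (𝒞.chart R).B₁ {s₁} ⊔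
      (RingHom.ker (𝒞.epsR R : (𝒞.chart R).B₁ →+* R)) •
        (⊤ : Submodule (𝒞.chart R).B₁ M.N₁) := by rw [heps]; trivial
  obtain ⟨x, hx, w, hw, rfl⟩ := Submodule.mem_sup.1 hn
  obtain ⟨b, rfl⟩ := Submodule.mem_span_singleton.1 hx
  rw [map_add, he, h0, mul_zero, eval_eq_zero_of_mem_smul_top 𝒞 e he hw, add_zero]

/-- If `s₁` generates the `ε`-fibre, a surjective `ε`-semilinear form is a unit at `s₁`. -/
theorem isUnit_eval_of_eps (e : M.N₁ →ₗ[R] R)
    (he : ∀ (b : (𝒞.chart R).B₁) (n : M.N₁), e (b • n) = 𝒞.epsR R b * e n)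
    (hsurj : Function.Surjective e) (s₁ : M.N₁)
    (heps : Submodule.span (𝒞.chart R).B₁ {s₁} ⊔
      (RingHom.ker (𝒞.epsR R : (𝒞.chart R).B₁ →+* R)) •
        (⊤ : Submodule (𝒞.chart R).B₁ M.N₁) = ⊤) : IsUnit (e s₁) := by
  obtain ⟨n, hn1⟩ := hsurj 1
  have hn : n ∈ Submodule.span (𝒞.chart R).B₁ {s₁} ⊔
      (RingHom.ker (𝒞.epsR R : (𝒞.chart R).B₁ →+* R)) •
        (⊤ : Submodule (𝒞.chart R).B₁ M.N₁) := by rw [heps]; trivial
  obtain ⟨x, hx, w, hw, rfl⟩ := Submodule.mem_sup.1 hn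
  obtain ⟨b, rfl⟩ := Submodule.mem_span_singleton.1 hx
  have hw0 : e w = 0 := eval_eq_zero_of_mem_smul_top 𝒞 e.toAddMonoidHom he hw
  rw [map_add, he, hw0, add_zero] at hn1
  exact IsUnit.of_mul_eq_one _ (by rw [mul_comm]; exact hn1)

/-- `eps` from rigidity: a section with `e s₁ = 1` generates the `ε`-fibre. -/
theorem span_sup_eq_top_of_rig (e : M.N₁ →ₗ[R] R)
    (hu : ∀ (Q : Type u) [AddCommGroup Q] [Module R Q] (h : M.N₁ →ₗ[R] Q),
      (∀ (b : (𝒞.chart R).B₁) (n : M.N₁), h (b • n) = 𝒞.epsR R b • h n) →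
        ∃! h' : R →ₗ[R] Q, ∀ n, h' (e n) = h n) (s₁ : M.N₁) (hs : e s₁ = 1) :
    Submodule.span (𝒞.chart R).B₁ {s₁} ⊔
      (RingHom.ker (𝒞.epsR R : (𝒞.chart R).B₁ →+* R)) •
        (⊤ : Submodule (𝒞.chart R).B₁ M.N₁) = ⊤ := by
  set W : Submodule (𝒞.chart R).B₁ M.N₁ := Submodule.span (𝒞.chart R).B₁ {s₁} ⊔
      (RingHom.ker (𝒞.epsR R : (𝒞.chart R).B₁ →+* R)) •
        (⊤ : Submodule (𝒞.chart R).B₁ M.N₁) with hW
  let h : M.N₁ →ₗ[R] (M.N₁ ⧸ W) := W.mkQ.restrictScalars R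
  have hh : ∀ (b : (𝒞.chart R).B₁) (n : M.N₁), h (b • n) = 𝒞.epsR R b • h n := by
    intro b n
    change (Submodule.Quotient.mk (b • n) : M.N₁ ⧸ W) =
      𝒞.epsR R b • (Submodule.Quotient.mk n : M.N₁ ⧸ W)
    rw [← Submodule.Quotient.mk_smul, Submodule.Quotient.eq,
      ← algebraMap_smul (𝒞.chart R).B₁ (𝒞.epsR R b) n, ← sub_smul]
    refine Submodule.mem_sup_right (Submodule.smul_mem_smul ?_ Submodule.mem_top)
    rw [RingHom.mem_ker]
    change 𝒞.epsR R (b - algebraMap R (𝒞.chart R).B₁ (𝒞.epsR R b)) = 0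
    rw [map_sub, AlgHom.commutes, Algebra.algebraMap_self, RingHom.id_apply, sub_self]
  obtain ⟨h', hh', -⟩ := hu (M.N₁ ⧸ W) h hh
  have h1 : h' 1 = 0 := by
    rw [← hs, hh']
    change (Submodule.Quotient.mk s₁ : M.N₁ ⧸ W) = 0
    rw [Submodule.Quotient.mk_eq_zero]
    exact Submodule.mem_sup_left (Submodule.mem_span_singleton_self s₁)
  rw [eq_top_iff]
  intro n _
  have h2 : h n = 0 := by
    rw [← hh' n]
    have h3 := h'.map_smul (e n) 1
    rw [smul_eq_mul, mul_one] at h3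
    rw [h3, h1, smul_zero]
  exact (Submodule.Quotient.mk_eq_zero W).1 h2

end rig

/-! ### The evaluation on a fibre -/

section fibre

variable {R R' : Type u} [CommRing R] [Algebra k R] [CommRing R'] [Algebra k R']
  (φ : R →ₐ[k] R') {M : GluedModule (𝒞.chart R)} {M' : GluedModule (𝒞.chart R')}

/-- The `ε`-semilinear form induced on a base change by an `ε`-semilinear form. -/
theorem exists_fibre_eval (D : BaseChangeData (𝒞.chartHom φ) M M') (e : M.N₁ →ₗ[R] R)
    (he : ∀ (b : (𝒞.chart R).B₁) (n : M.N₁), e (b • n) = 𝒞.epsR R b * e n) :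
    ∃ ē : M'.N₁ →+ R',
      (∀ (b : (𝒞.chart R').B₁) (n : M'.N₁), ē (b • n) = 𝒞.epsR R' b * ē n) ∧
        ∀ n, ē (D.j₁ n) = φ (e n) := by
  letI : Algebra (𝒞.chart R').B₁ R' := Lib.Rigid.epsAlgebra 𝒞 (R := R')
  obtain ⟨h', hh', -⟩ := D.univ₁ R' ((φ : R →+* R').toAddMonoidHom.comp e.toAddMonoidHom)
    (fun b n => by
      change φ (e (b • n)) = 𝒞.epsR R' ((𝒞.chartHom φ).ψ₁ b) * φ (e n)
      rw [he, map_mul, Lib.Rigid.epsR_chartHom])
  exact ⟨h'.toAddMonoidHom, fun b n => h'.map_smul b n, hh'⟩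

end fibre

/-! ### LG2: canonical sections and base change to a field -/

section unit

variable {R : Type u} [CommRing R] [Algebra k R] {κ : Type u} [Field κ] [Algebra k κ]
  (φ : R →ₐ[k] κ) {M : GluedModule (𝒞.chart R)} {M' : GluedModule (𝒞.chart κ)}

/-- **LG2.** Under base change to a field, the image of a canonical section is a nonzero
multiple of any canonical section of the fibre. -/
theorem exists_ne_zero_smul (D : BaseChangeData (𝒞.chartHom φ) M M') (hr : Rigid 𝒞 M)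
    {s : M.N₁ × M.N₂} (hs : IsCan 𝒞 M s) {s' : M'.N₁ × M'.N₂} (hs' : IsCan 𝒞 M' s') :
    ∃ c : κ, c ≠ 0 ∧ (D.j₁ s.1, D.j₂ s.2) = c • s' := by
  obtain ⟨e, he, hu⟩ := hr
  have hesurj := rig_surjective 𝒞 e hu
  have hunit : IsUnit (e s.1) := isUnit_eval_of_eps 𝒞 e he hesurj s.1 hs.eps
  obtain ⟨ē, hē, hēj⟩ := exists_fibre_eval 𝒞 φ D e he
  have hmem : (D.j₁ s.1, D.j₂ s.2) ∈ M'.H0 := (mapH0 D ⟨s, hs.mem⟩).2
  obtain ⟨c, hc, -⟩ := hs'.gen _ hmem
  refine ⟨c, ?_, hc⟩
  rintro rfl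
  have h1 : D.j₁ s.1 = 0 := by
    have := congrArg Prod.fst hc
    simpa using this
  have h2 : φ (e s.1) = 0 := by rw [← hēj, h1, map_zero]
  exact (hunit.map φ).ne_zero h2

end unit

/-! ### LG1 -/

section main

variable [IsAlgClosed k] {R : Type u} [CommRing R] [Algebra k R]

/-- A geometric fibre above every maximal ideal, from the hypothesis of the leaf. -/
theorem exists_fibre (M : GluedModule (𝒞.chart R))
    (H : ∀ (κ : Type u) [Field κ] [IsAlgClosed κ] [Algebra k κ] (φ : R →ₐ[k] κ)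
      (M' : GluedModule (𝒞.chart κ)), IsBC (𝒞.chartHom φ) M M' →
        ∃ s' : M'.N₁ × M'.N₂, IsCan 𝒞 M' s') (m : Ideal R) [m.IsMaximal] :
    ∃ (κ : Type u) (_ : Field κ) (_ : IsAlgClosed κ) (_ : Algebra k κ) (φ : R →ₐ[k] κ)
      (M' : GluedModule (𝒞.chart κ)) (_ : BaseChangeData (𝒞.chartHom φ) M M')
      (s' : M'.N₁ × M'.N₂), RingHom.ker (φ : R →+* κ) = m ∧ IsCan 𝒞 M' s' := by
  obtain ⟨κ, i1, i2, i3, φ, hφ⟩ := exists_geomPoint (k := k) m
  obtain ⟨s', hs'⟩ := H κ φ _ (isBC_baseChange (𝒞.chartHom φ) M)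
  exact ⟨κ, i1, i2, i3, φ, _, baseChangeData (𝒞.chartHom φ) M, s', hφ, hs'⟩

/-- `H¹(M) = 0` if `H¹` vanishes on the geometric fibres. -/
theorem subsingleton_H1_of_fibres (M : GluedModule (𝒞.chart R)) (hM : M.IsLineBundle)
    (H : ∀ (κ : Type u) [Field κ] [IsAlgClosed κ] [Algebra k κ] (φ : R →ₐ[k] κ)
      (M' : GluedModule (𝒞.chart κ)), IsBC (𝒞.chartHom φ) M M' →
        ∃ s' : M'.N₁ × M'.N₂, IsCan 𝒞 M' s') : Subsingleton M.H1 := by
  by_contra hns
  rw [not_subsingleton_iff_nontrivial] at hns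
  haveI := hns
  haveI : Module.Finite R M.H1 := Lib.Coh.h1_finite 𝒞 M hM
  obtain ⟨m, hm, hθ⟩ := exists_maximal_functional.{u} (R := R) M.H1
  obtain ⟨κ, _, _, _, φ, M', D, s', hker, hs'⟩ := exists_fibre 𝒞 M H m
  letI : Algebra R κ := (φ : R →+* κ).toAlgebra
  obtain ⟨θ, hθ0⟩ := hθ κ hker
  have hS := isSemiBC_mapH1 (isPushoutHom_chartHom 𝒞 φ) D
  obtain ⟨θ', hθ', -⟩ := hS.univ κ θ.toAddMonoidHom (fun r x => by
    change θ (r • x) = φ r • θ x
    rw [map_smul]
    rfl)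
  haveI := hs'.h1
  apply hθ0
  refine LinearMap.ext fun x => ?_
  have h1 := hθ' x
  rw [Subsingleton.elim (mapH1 D x) 0, map_zero] at h1
  exact h1.symm

/-- **LG1.** The canonical section exists globally if it exists on all geometric fibres. -/
theorem exists_isCan_of_fibres (M : GluedModule (𝒞.chart R)) (hM : M.IsLineBundle)
    (hr : Rigid 𝒞 M)
    (H : ∀ (κ : Type u) [Field κ] [IsAlgClosed κ] [Algebra k κ] (φ : R →ₐ[k] κ)
      (M' : GluedModule (𝒞.chart κ)), IsBC (𝒞.chartHom φ) M M' →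
        ∃ s' : M'.N₁ × M'.N₂, IsCan 𝒞 M' s') :
    ∃ s : M.N₁ × M.N₂, IsCan 𝒞 M s := by
  classical
  obtain ⟨e, he, hu⟩ := hr
  have hesurj : Function.Surjective e := rig_surjective 𝒞 e hu
  have h1 : Subsingleton M.H1 := subsingleton_H1_of_fibres 𝒞 M hM H
  have hdsurj : Function.Surjective M.d := Lib.Coh.d_surjective_of_subsingleton_H1 M h1
  obtain ⟨-, -, hp12⟩ := Lib.Coh.projective_pieces 𝒞 M hM
  haveI : Module.Flat R M.N₁₂ := inferInstance
  haveI : Module.Projective R M.H0 := Lib.Coh.h0_projective 𝒞 M hM h1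
  -- the evaluation `H⁰(M) → R`
  let u : M.H0 →ₗ[R] R := e ∘ₗ LinearMap.fst R M.N₁ M.N₂ ∘ₗ M.H0.subtype
  have hu_apply : ∀ t : M.H0, u t = e (t : M.N₁ × M.N₂).1 := fun t => rfl
  have hbij : Function.Bijective u := by
    apply bijective_of_fibre_packages u
    intro m _
    obtain ⟨κ, _, _, _, φ, M', D, s', hker, hs'⟩ := exists_fibre 𝒞 M H m
    obtain ⟨ē, hē, hēj⟩ := exists_fibre_eval 𝒞 φ D e he
    have hS : IsSemiBC (φ : R →+* κ) (mapH0 D) :=
      isSemiBC_mapH0_of_surjective (isPushoutHom_chartHom 𝒞 φ) D hdsurj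
    -- `ē s'₁ ≠ 0`
    have hne : ē s'.1 ≠ 0 := by
      intro h0
      obtain ⟨n, hn⟩ := hesurj 1
      have h2 := eval_eq_zero_of_eps 𝒞 ē hē s'.1 hs'.eps h0 (D.j₁ n)
      rw [hēj, hn, map_one] at h2
      exact one_ne_zero h2
    let E : M'.H0 →ₗ[κ] κ :=
      { toFun := fun t => ē (t : M'.N₁ × M'.N₂).1
        map_add' := fun x y => by
          change ē ((x : M'.N₁ × M'.N₂).1 + (y : M'.N₁ × M'.N₂).1) = _
          rw [map_add]
        map_smul' := fun c x => by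
          change ē (c • (x : M'.N₁ × M'.N₂).1) = c • ē (x : M'.N₁ × M'.N₂).1
          rw [← algebraMap_smul (𝒞.chart κ).B₁ c (x : M'.N₁ × M'.N₂).1, hē, AlgHom.commutes]
          rfl }
    have hE : ∀ t : M'.H0, E t = ē (t : M'.N₁ × M'.N₂).1 := fun t => rfl
    refine ⟨κ, inferInstance, (φ : R →+* κ), M'.H0, inferInstance, inferInstance, mapH0 D, E,
      hker, hS, fun t => ?_, fun q hq => ?_, ⟨⟨s', hs'.mem⟩, hne⟩⟩
    · rw [hE, hu_apply]
      exact hēj _
    · obtain ⟨r, hr, -⟩ := hs'.gen q q.2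
      rw [hE, hr] at hq
      have hq' : ē (r • s'.1) = 0 := hq
      rw [← algebraMap_smul (𝒞.chart κ).B₁ r s'.1, hē, AlgHom.commutes] at hq'
      have hr0 : r = 0 := by
        rcases mul_eq_zero.1 hq' with h | h
        · exact h
        · exact absurd h hne
      apply Subtype.ext
      rw [hr, hr0, zero_smul]
      rfl
  obtain ⟨p₀, hp₀⟩ := hbij.2 1
  have hp₀' : e (p₀ : M.N₁ × M.N₂).1 = 1 := hp₀
  refine ⟨(p₀ : M.N₁ × M.N₂), ⟨p₀.2, h1, ?_, ?_, ?_⟩⟩
  · -- gen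
    intro t ht
    refine ⟨e t.1, ?_, ?_⟩
    · have h2 : (⟨t, ht⟩ : M.H0) = e t.1 • p₀ := hbij.1 (by
        rw [map_smul, hu_apply, hp₀, smul_eq_mul, mul_one])
      exact congrArg Subtype.val h2
    · intro r hr
      rw [hr]
      change r = e (r • (p₀ : M.N₁ × M.N₂).1)
      rw [map_smul, hp₀', smul_eq_mul, mul_one]
  · -- eps
    exact span_sup_eq_top_of_rig 𝒞 e hu _ hp₀'
  · -- away
    haveI := hM.inv₂
    have hfin : Module.Finite (𝒞.chart R).B₂ M.N₂ := inferInstance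
    refine F5390.C2.of_fibres 𝒞 M hfin p₀ (fun κ _ _ _ φ => ?_)
    obtain ⟨s', hs'⟩ := H κ φ _ (isBC_baseChange (𝒞.chartHom φ) M)
    refine ⟨_, baseChangeData (𝒞.chartHom φ) M, ?_⟩
    set D := baseChangeData (𝒞.chartHom φ) M with hD
    obtain ⟨ē, hē, hēj⟩ := exists_fibre_eval 𝒞 φ D e he
    obtain ⟨c, hc, -⟩ := hs'.gen _ (F5390.mapH0 D p₀).2
    have hc0 : c ≠ 0 := by
      rintro rfl
      have h3 : D.j₁ (p₀ : M.N₁ × M.N₂).1 = 0 := by
        have := congrArg Prod.fst hc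
        simpa using this
      have h4 : φ (e (p₀ : M.N₁ × M.N₂).1) = 0 := by rw [← hēj, h3, map_zero]
      rw [hp₀', map_one] at h4
      exact one_ne_zero h4
    have h5 : F5390.mapH0 D p₀ = c • (⟨s', hs'.mem⟩ : (M.baseChange (𝒞.chartHom φ)).H0) :=
      Subtype.ext hc
    rw [h5, F5390.C2.smul_unit _ _ c (isUnit_iff_ne_zero.2 hc0)]
    exact hs'.away

end main

end Fermat.Agent.S25.ATLAS.DIV.LG
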