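/-
S25 package ATLAS/DIV, leaf LG -- sub-leaf LG3 (helper4190): **(Flat)** for a canonical section.

`quot_zeroIdeal₁_finite_projective` : `M` a rigid line bundle over `𝒞.chart R` (ANY `k`-algebra
`R`), `IsCan 𝒞 M s`  ⟹  `(R ⊗[k] A₁) ⧸ zeroIdeal₁ 𝒞 M s` is a finite projective `R`-module.

Proof: helper2868's direct (Flat) `chart_flat` (files copied verbatim under `LG/F2868/`, namespace
`Fermat.Agent.S25.ATLAS.DIV.LG.F2868`), fed with the rigidification `e` (`e s₁` is a unit by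
`IsCan.eps`) and `IsCan.away`.
-/
import Fermat.Agent.S25.ATLAS.DIV.LG.Can
import Fermat.Agent.S25.ATLAS.DIV.LG.F2868.DivPoint

set_option autoImplicit false
set_option linter.style.haveILetI false

universe u

namespace Fermat.Agent.S25.ATLAS.DIV.LG

open scoped TensorProduct

open Fermat.Agent.S25 GluedModule H2890

variable {k : Type u} [Field k] (𝒞 : CurveData k) [IsAlgClosed k] {R : Type u} [CommRing R]
  [Algebra k R]

/-- **LG3 = (Flat).** The coordinate ring of the zero scheme of a canonical section is finite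
projective over the base. -/
theorem quot_zeroIdeal₁_finite_projective (M : GluedModule (𝒞.chart R)) (hM : M.IsLineBundle)
    (hr : Rigid 𝒞 M) {s : M.N₁ × M.N₂} (hs : IsCan 𝒞 M s) :
    Module.Finite R ((R ⊗[k] 𝒞.A₁) ⧸ zeroIdeal₁ 𝒞 M s) ∧
      Module.Projective R ((R ⊗[k] 𝒞.A₁) ⧸ zeroIdeal₁ 𝒞 M s) := by
  obtain ⟨e, he, hu⟩ := hr
  have hunit : IsUnit (e s.1) := isUnit_eval_of_eps 𝒞 e he (rig_surjective 𝒞 e hu) s.1 hs.eps
  obtain ⟨h1, h2, -⟩ := F2868.chart_flat 𝒞 M hM ⟨s, hs.mem⟩ e he hunit hs.away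
  exact ⟨h1, h2⟩

end Fermat.Agent.S25.ATLAS.DIV.LG
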