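/-
S25 package ATLAS/DIV, leaf LG -- the derivation (helper4190).

`exists_inDivChart_of_fibres'` = the frozen leaf statement `exists_inDivChart_of_fibres`, proved
from
* LG1 `exists_isCan_of_fibres` (`LG/Can.lean`): the canonical section exists globally;
* LG2 `exists_ne_zero_smul`    (`LG/Can.lean`): canonical sections correspond on the fibres;
* LG3 `quot_zeroIdeal₁_finite_projective` (`LG/Flat.lean`): (Flat);
* the framed-ideal engine `H4190.Framed.of_fibres` (C3 is fibrewise) and the universal property of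
  the Hilbert chart (C4: `x_s(h)` is a unit iff it is nonzero at every geometric point).
No base-change stub is used: the fibres are the concrete `M.baseChange` of `Lib/BaseChangeData`.
-/
import Fermat.Agent.S25.ATLAS.DIV.LG.Flat
import Fermat.Agent.S25.ATLAS.DIV.H4190.Stage3

set_option autoImplicit false
set_option linter.style.haveILetI false

universe u

namespace Fermat.Agent.S25.ATLAS.DIV.LG

open scoped TensorProduct

open Fermat.Agent.S25 GluedModule H2890 HC2928

section generic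

variable {k : Type u} [Field k] {A : Type u} [CommRing A] [Algebra k A] {g : ℕ} {b : Fin g → A}
  {R : Type u} [CommRing R] [Algebra k R]

/-- `IsFreeOn` (helper2928) and `Framed` (helper4190) are the same condition. -/
theorem isFreeOn_iff_framed (I : Ideal (R ⊗[k] A)) : IsFreeOn b I ↔ H4190.Framed b R I := by
  unfold H4190.Framed H4190.frame
  rw [H4190.bijective_linearCombination_iff_basis, isFreeOn_iff, top_le_iff]

/-- Transport of the chart conditions C3, C4 along an equality of ideals. -/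
theorem free_unit_of_eq {h : HilbChart k A b} {I J : Ideal (R ⊗[k] A)} (hI : IsFreeOn b I)
    (hu : IsUnit ((idealEquiv (b := b) (R := R)).symm ⟨I, hI⟩ h)) (hIJ : I = J) :
    ∃ hJ : IsFreeOn b J, IsUnit ((idealEquiv (b := b) (R := R)).symm ⟨J, hJ⟩ h) := by
  subst hIJ
  exact ⟨hI, hu⟩

/-- Naturality of the point of the Hilbert chart attached to a framed ideal. -/
theorem comp_idealEquiv_symm {R' : Type u} [CommRing R'] [Algebra k R'] (φ : R →ₐ[k] R')
    {I : Ideal (R ⊗[k] A)} (hI : IsFreeOn b I)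
    (hI' : IsFreeOn b (I.map (Algebra.TensorProduct.map φ (AlgHom.id k A)).toRingHom)) :
    φ.comp ((idealEquiv (b := b) (R := R)).symm ⟨I, hI⟩) =
      (idealEquiv (b := b) (R := R')).symm ⟨_, hI'⟩ := by
  rw [Equiv.eq_symm_apply]
  apply Subtype.ext
  change (Datum.ofHom (φ.comp ((idealEquiv (b := b) (R := R)).symm ⟨I, hI⟩))).ideal = _
  rw [Datum.ofHom_comp, Datum.map_ideal]
  have h1 : (Datum.ofHom ((idealEquiv (b := b) (R := R)).symm ⟨I, hI⟩)).ideal = I :=
    congrArg Subtype.val ((idealEquiv (b := b) (R := R)).apply_symm_apply ⟨I, hI⟩)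
  rw [h1]
  rfl

end generic

variable {k : Type u} [Field k] (𝒞 : CurveData k) [IsAlgClosed k]

/-- **Leaf LG** (statement of `ATLAS/DIV/LG.lean`). -/
theorem exists_inDivChart_of_fibres' {g : ℕ} (b : Fin g → 𝒞.A₁) (h : HilbChart k 𝒞.A₁ b)
    {R : Type u} [CommRing R] [Algebra k R] (M : GluedModule (𝒞.chart R))
    (hM : M.IsLineBundle) (hr : Rigid 𝒞 M)
    (H : ∀ (κ : Type u) [Field κ] [IsAlgClosed κ] [Algebra k κ] (φ : R →ₐ[k] κ)
      (M' : GluedModule (𝒞.chart κ)), IsBC (𝒞.chartHom φ) M M' →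
        ∃ s' : M'.N₁ × M'.N₂, InDivChart 𝒞 b h M' s') :
    ∃ s : M.N₁ × M.N₂, InDivChart 𝒞 b h M s := by
  classical
  -- C1 + C2: the canonical section
  obtain ⟨s, hs⟩ := exists_isCan_of_fibres 𝒞 M hM hr (fun κ _ _ _ φ M' hBC => by
    obtain ⟨s', h'⟩ := H κ φ M' hBC
    exact ⟨s', h'.can⟩)
  -- (Flat)
  obtain ⟨hfin, hproj⟩ := quot_zeroIdeal₁_finite_projective 𝒞 M hM hr hs
  -- the fibres: C3 and C4 for the extended ideal
  have key : ∀ (κ : Type u) [Field κ] [IsAlgClosed κ] [Algebra k κ] (φ : R →ₐ[k] κ),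
      ∃ free' : IsFreeOn b ((zeroIdeal₁ 𝒞 M s).map
          (Algebra.TensorProduct.map φ (AlgHom.id k 𝒞.A₁)).toRingHom),
        IsUnit ((idealEquiv (b := b) (R := κ)).symm ⟨_, free'⟩ h) := by
    intro κ _ _ _ φ
    obtain ⟨s', hs'⟩ := H κ φ _ (isBC_baseChange (𝒞.chartHom φ) M)
    obtain ⟨c, hc0, hc⟩ := exists_ne_zero_smul 𝒞 φ (baseChangeData (𝒞.chartHom φ) M) hr hs hs'.can
    haveI := hM.inv₁
    have hz : zeroIdeal₁ 𝒞 (M.baseChange (𝒞.chartHom φ)) s' = (zeroIdeal₁ 𝒞 M s).map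
        (Algebra.TensorProduct.map φ (AlgHom.id k 𝒞.A₁)).toRingHom := by
      have h1 : (baseChangeData (𝒞.chartHom φ) M).j₁ s.1 = c • s'.1 := congrArg Prod.fst hc
      have h2 := H4190.ord₁_baseChangeData 𝒞 φ (baseChangeData (𝒞.chartHom φ) M) s.1
      rw [h1, ← algebraMap_smul (𝒞.chart κ).B₁ c s'.1,
        H4190.ord_smul_of_isUnit ((isUnit_iff_ne_zero.2 hc0).map _)] at h2
      exact h2
    exact free_unit_of_eq hs'.free hs'.unit hz
  -- C3
  have hfree : IsFreeOn b (zeroIdeal₁ 𝒞 M s) := by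
    rw [isFreeOn_iff_framed]
    exact H4190.Framed.of_fibres hfin hproj
      (fun κ _ _ _ φ => (isFreeOn_iff_framed _).1 (key κ φ).choose)
  -- C4
  refine ⟨s, hs, hfree, ?_⟩
  by_contra hnu
  obtain ⟨m, hm, hxm⟩ := exists_max_ideal_of_mem_nonunits hnu
  obtain ⟨κ, _, _, _, φ, hφ⟩ := exists_geomPoint (k := k) m
  obtain ⟨free', hu'⟩ := key κ φ
  rw [← comp_idealEquiv_symm φ hfree free'] at hu'
  have h0 : φ ((idealEquiv (b := b) (R := R)).symm ⟨zeroIdeal₁ 𝒞 M s, hfree⟩ h) = 0 := by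
    have h1 : (idealEquiv (b := b) (R := R)).symm ⟨zeroIdeal₁ 𝒞 M s, hfree⟩ h ∈
        RingHom.ker (φ : R →+* κ) := by
      rw [hφ]
      exact hxm
    exact h1
  exact hu'.ne_zero h0

end Fermat.Agent.S25.ATLAS.DIV.LG
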