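/-
S25 package ATLAS/DIV, leaf LG -- Mathlib-only tools (helper4190).

* `exists_geomPoint`      : a geometric point (algebraically closed field, in the same universe)
                            above every maximal ideal of a `k`-algebra;
* `exists_maximal_functional` : "Nakayama by test functionals": a nonzero finite module `Q` has a
                            maximal ideal `m` such that for EVERY field `K` over `R` with kernel `m`
                            there is a nonzero `R`-linear map `Q → K`;
* `injective_of_forall_dual_mem_jacobson` : Bass' lemma in the form needed for C1: a linear form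
                            `u : P → R` on a projective module with `u p₀ = 1` is injective as soon
                            as every linear form takes values in the Jacobson radical on `ker u`
                            (no finiteness assumption on `P`).
-/
import Fermat.Agent.S25.ATLAS.DIV.H4190.ModBasis

set_option autoImplicit false
set_option linter.style.haveILetI false

universe u

namespace Fermat.Agent.S25.ATLAS.DIV.LG

open scoped TensorProduct

section geomPoint

variable {k : Type u} [Field k] {R : Type u} [CommRing R] [Algebra k R]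

/-- A geometric point above a maximal ideal. -/
theorem exists_geomPoint (m : Ideal R) [hm : m.IsMaximal] :
    ∃ (κ : Type u) (_ : Field κ) (_ : IsAlgClosed κ) (_ : Algebra k κ) (φ : R →ₐ[k] κ),
      RingHom.ker (φ : R →+* κ) = m := by
  letI : Field (R ⧸ m) := Ideal.Quotient.field m
  refine ⟨AlgebraicClosure (R ⧸ m), inferInstance, inferInstance, inferInstance,
    IsScalarTower.toAlgHom k R (AlgebraicClosure (R ⧸ m)), ?_⟩
  change RingHom.ker (algebraMap R (AlgebraicClosure (R ⧸ m))) = m
  rw [IsScalarTower.algebraMap_eq R (R ⧸ m) (AlgebraicClosure (R ⧸ m)),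
    RingHom.ker_comp_of_injective _ (FaithfulSMul.algebraMap_injective _ _)]
  exact Ideal.mk_ker

end geomPoint

section functional

variable {R : Type*} [CommRing R]

/-- **Nakayama by test functionals.**  A nonzero finite `R`-module `Q` has a maximal ideal `m`
such that for every field `K` over `R` with `ker (R → K) = m` there is a nonzero `R`-linear map
`Q → K`. -/
theorem exists_maximal_functional.{w} (Q : Type*) [AddCommGroup Q] [Module R Q]
    [Module.Finite R Q] [Nontrivial Q] :
    ∃ (m : Ideal R) (_ : m.IsMaximal), ∀ (K : Type w) [Field K] [Algebra R K],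
      RingHom.ker (algebraMap R K) = m → ∃ θ : Q →ₗ[R] K, θ ≠ 0 := by
  have hne : (Module.support R Q).Nonempty := by
    rw [Set.nonempty_iff_ne_empty, Ne, Module.support_eq_empty_iff]
    exact not_subsingleton Q
  obtain ⟨p, hp⟩ := hne
  obtain ⟨m, hm, hpm⟩ := Ideal.exists_le_maximal p.asIdeal p.isPrime.ne_top
  have hm' : (⟨m, hm.isPrime⟩ : PrimeSpectrum R) ∈ Module.support R Q :=
    Module.mem_support_mono (show p ≤ ⟨m, hm.isPrime⟩ from hpm) hp
  refine ⟨m, hm, ?_⟩
  intro K _ _ hker
  have hpt : H4190.fieldPt R K = ⟨m, hm.isPrime⟩ := PrimeSpectrum.ext hker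
  rw [← hpt, ← H4190.nontrivial_field_tensor_iff'] at hm'
  obtain ⟨x, hx⟩ := exists_ne (0 : K ⊗[R] Q)
  obtain ⟨f, hf⟩ := Module.Projective.exists_dual_ne_zero K hx
  refine ⟨(f.restrictScalars R).comp (TensorProduct.mk R K Q 1), ?_⟩
  intro h0
  apply hf
  have key : ∀ y : K ⊗[R] Q, f y = 0 := by
    intro y
    induction y using TensorProduct.induction_on with
    | zero => exact map_zero f
    | tmul c q =>
      have h1 : f ((1 : K) ⊗ₜ[R] q) = 0 := LinearMap.congr_fun h0 q
      have h2 : c ⊗ₜ[R] q = c • ((1 : K) ⊗ₜ[R] q) := by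
        rw [TensorProduct.smul_tmul', smul_eq_mul, mul_one]
      rw [h2, map_smul, h1, smul_zero]
    | add y z hy hz => rw [map_add, hy, hz, add_zero]
  exact key x

/-- **Bass' lemma**, in the form used for condition C1: let `P` be a projective module (not
necessarily finite), `u : P → R` a linear form with `u p₀ = 1`.  If every linear form takes values
in the Jacobson radical on `ker u`, then `u` is injective. -/
theorem injective_of_forall_dual_mem_jacobson {P : Type*} [AddCommGroup P] [Module R P]
    [Module.Projective R P] (u : P →ₗ[R] R) (p₀ : P) (hp₀ : u p₀ = 1)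
    (h : ∀ x : P, u x = 0 → ∀ ψ : P →ₗ[R] R, ψ x ∈ Ideal.jacobson (⊥ : Ideal R)) :
    Function.Injective u := by
  classical
  obtain ⟨σ, hσ⟩ := Module.projective_def'.mp ‹Module.Projective R P›
  have hσ' : ∀ p : P, Finsupp.linearCombination R id (σ p) = p := fun p =>
    LinearMap.congr_fun hσ p
  -- the retraction onto `ker u`
  let ρ : P →ₗ[R] P := LinearMap.id - (LinearMap.toSpanSingleton R P p₀).comp u
  have hρ : ∀ p, ρ p = p - u p • p₀ := fun p => rfl
  have huρ : ∀ p, u (ρ p) = 0 := fun p => by
    rw [hρ, map_sub, map_smul, hp₀, smul_eq_mul, mul_one, sub_self]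
  rw [injective_iff_map_eq_zero]
  intro x hx
  have hρx : ρ x = x := by rw [hρ, hx, zero_smul, sub_zero]
  set v := σ x with hv
  -- `x = ∑ v y • ρ y`
  have hx1 : x = ∑ y ∈ v.support, v y • ρ y := by
    conv_lhs => rw [← hρx, ← hσ' x, Finsupp.linearCombination_apply, Finsupp.sum, map_sum]
    refine Finset.sum_congr rfl fun y _ => ?_
    rw [map_smul]
    rfl
  -- coordinates
  have hcoord : ∀ z : P, v z = ∑ y ∈ v.support, v y * (σ (ρ y)) z := by
    intro z
    have h1 : v z = (σ (∑ y ∈ v.support, v y • ρ y)) z := by rw [← hx1]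
    rw [h1, map_sum, Finsupp.finsetSum_apply]
    refine Finset.sum_congr rfl fun y _ => ?_
    rw [map_smul, Finsupp.smul_apply, smul_eq_mul]
  have hJ : ∀ y z : P, (σ (ρ y)) z ∈ Ideal.jacobson (⊥ : Ideal R) := fun y z =>
    h (ρ y) (huρ y) ((Finsupp.lapply z).comp σ)
  -- the ideal of coordinates
  set 𝔞 : Ideal R := Ideal.span ((v.support.image v : Finset R) : Set R) with h𝔞
  have hmem : ∀ y ∈ v.support, v y ∈ 𝔞 := fun y hy =>
    Ideal.subset_span (Finset.mem_coe.2 (Finset.mem_image_of_mem v hy))
  have hle : 𝔞 ≤ Ideal.jacobson (⊥ : Ideal R) • 𝔞 := by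
    rw [h𝔞, Ideal.span_le]
    intro c hc
    obtain ⟨z, -, rfl⟩ := Finset.mem_image.1 (Finset.mem_coe.1 hc)
    rw [SetLike.mem_coe, hcoord z]
    refine Submodule.sum_mem _ fun y hy => ?_
    rw [mul_comm]
    exact Submodule.smul_mem_smul (hJ y z) (hmem y hy)
  have hbot : 𝔞 = ⊥ :=
    Submodule.eq_bot_of_le_smul_of_le_jacobson_bot (Ideal.jacobson ⊥) 𝔞
      (Submodule.fg_span (Finset.finite_toSet _)) hle le_rfl
  have hv0 : v = 0 := by
    ext z
    by_cases hz : z ∈ v.support
    · have := hmem z hz
      rw [hbot] at this
      simpa using this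
    · simpa using Finsupp.notMem_support_iff.1 hz
  rw [← hσ' x, ← hv, hv0, map_zero]

end functional

end Fermat.Agent.S25.ATLAS.DIV.LG
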